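/-
S35-GEO, leaf (STEP1-FROB) of the design row 2985 (helper58): Step 1 of Program B' for an
automorphism `S` which is NOT congruent to the identity modulo the uniformiser (a power of a
Frobenius lift instead of an inertia element).

`C` a noetherian integrally closed chart with fraction field `F`, `x` a prime of `C` containing
the uniformiser `π`, `S` an automorphism of `F` restricting to an automorphism `σ` of `C`, with
`σ π` an associate of `π`.  Put `x' := σ⁻¹ x` (`x.comap σ`).  If the order of `u` at every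
horizontal height-one prime through `x` and through `x'` is divisible by `m`, and the zeros and
poles of `u` through `x` and `x'` have saturated generators (the certificates of `H30.PointOK`),
then

  `S u / u = (a / b) * g ^ m`   with `a, b ∈ C ∖ x`,

in each of the two cases

* (fixed) `σ⁻¹ x = x` and the vertical height-one primes through `x` are `σ`-stable
  (crossing points);
* (one component) there is one `σ`-stable prime `P₀` such that every vertical height-one prime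
  through `x` equals `P₀`, and `P₀` is generated by `π` at `x` (one-component points).

Proof: `g₁` a root of `u` at `x`, `g₂` a root of `u` at `x'` (`H7.exists_root_of_local_eqs`),
normalised by powers of `π` to be units at the vertical valuation ring in the second case;
`S (u / g₂ ^ m) / (u / g₁ ^ m)` is a unit at every height-one prime through `x`; Krull.

On `S34/H7` (Step 1 of B') and `S34/H54` (Krull) only.
-/
import Fermat.Agent.S34.H7.Step1Supply

set_option autoImplicit false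
set_option linter.unusedSectionVars false
set_option linter.unusedVariables false

namespace Fermat.Agent.S35.H58

open Fermat.Agent.S34 Fermat.Agent.S34.H7

section Core

variable {F : Type*} [Field F] {A₀ : Type*} [CommRing A₀] [Algebra A₀ F]

/-- **The core of Step 1 for a general automorphism.**  `𝒱` a family of valuation rings with the
Krull property at `x`, `𝒱'` a second family; `S` maps the horizontal members of `𝒱` into the
horizontal members of `𝒱'` and preserves the valuation of the vertical members of `𝒱`.  If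
`g₁` is a root of `u` along the horizontal members of `𝒱`, `g₂` a root of `u` along the
horizontal members of `𝒱'`, and `g₁ / g₂` is a unit at the vertical members of `𝒱`, then
`S u / u = (a / b) (S g₂ / g₁) ^ m` with `a, b ∈ C ∖ x`. -/
theorem cartier_frob_core (C : Subalgebra A₀ F) (x : Ideal ↥C) (hx : x.IsPrime) (ϖ : F)
    (𝒱 𝒱' : Set (ValuationSubring F))
    (hKrull : ∀ y : F, (∀ V ∈ 𝒱, y ∈ V) → ∃ a b : ↥C, b ∉ x ∧ y * (b : F) = (a : F))
    (S : F ≃+* F)
    (hSh : ∀ V ∈ 𝒱, ϖ⁻¹ ∈ V →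
      V.comap (S : F →+* F) ∈ 𝒱' ∧ ϖ⁻¹ ∈ V.comap (S : F →+* F))
    (hSv : ∀ V ∈ 𝒱, ϖ⁻¹ ∉ V → ∀ y : F, y ≠ 0 → IsU V (S y / y))
    (m : ℕ) (u g₁ g₂ : F) (hu : u ≠ 0) (hg₁ : g₁ ≠ 0) (hg₂ : g₂ ≠ 0)
    (hug₁ : ∀ V ∈ 𝒱, ϖ⁻¹ ∈ V → IsU V (u / g₁ ^ m))
    (hug₂ : ∀ V ∈ 𝒱', ϖ⁻¹ ∈ V → IsU V (u / g₂ ^ m))
    (hvert : ∀ V ∈ 𝒱, ϖ⁻¹ ∉ V → IsU V (g₁ / g₂)) :
    ∃ a b : ↥C, a ∉ x ∧ b ∉ x ∧ S u / u * (b : F) = (a : F) * (S g₂ / g₁) ^ m := by
  have hg₁m : g₁ ^ m ≠ 0 := pow_ne_zero m hg₁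
  have hg₂m : g₂ ^ m ≠ 0 := pow_ne_zero m hg₂
  have hz₁ : u / g₁ ^ m ≠ 0 := div_ne_zero hu hg₁m
  have hz₂ : u / g₂ ^ m ≠ 0 := div_ne_zero hu hg₂m
  have hSz₂ : S (u / g₂ ^ m) ≠ 0 := (map_ne_zero S).mpr hz₂
  have hSu : S u ≠ 0 := (map_ne_zero S).mpr hu
  have hSg₂ : S g₂ ≠ 0 := (map_ne_zero S).mpr hg₂
  -- `w = S z₂ / z₁` is a unit at every member of `𝒱`
  have hw : ∀ V ∈ 𝒱, IsU V (S (u / g₂ ^ m) / (u / g₁ ^ m)) := by
    intro V hV
    by_cases hh : ϖ⁻¹ ∈ V
    · obtain ⟨h1, h2⟩ := hSh V hV hh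
      have h3 := hug₂ _ h1 h2
      have h4 : IsU V (S (u / g₂ ^ m)) := by
        refine ⟨ValuationSubring.mem_comap.mp h3.1, ?_⟩
        rw [← map_inv₀]
        exact ValuationSubring.mem_comap.mp h3.2
      exact h4.div (hug₁ V hV hh)
    · have h5 := hSv V hV hh _ hz₂
      have h6 := (hvert V hV hh).pow m
      have e : S (u / g₂ ^ m) / (u / g₁ ^ m) =
          S (u / g₂ ^ m) / (u / g₂ ^ m) * (g₁ / g₂) ^ m := by
        rw [div_pow]
        field_simp
      rw [e]
      exact h5.mul h6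
  obtain ⟨a, b, hb, hab⟩ := hKrull _ fun V hV => (hw V hV).1
  obtain ⟨a', b', hb', hab'⟩ := hKrull _ fun V hV => (hw V hV).2
  have ha : a ∉ x := by
    intro ha
    have hprod : a * a' = b * b' := by
      apply Subtype.ext
      have e1 : ((a * a' : ↥C) : F) = (a : F) * (a' : F) := rfl
      have e2 : ((b * b' : ↥C) : F) = (b : F) * (b' : F) := rfl
      rw [e1, e2, ← hab, ← hab']
      field_simp
    have : b * b' ∈ x := by
      rw [← hprod]
      exact x.mul_mem_right _ ha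
    rcases hx.mem_or_mem this with h | h
    · exact hb h
    · exact hb' h
  refine ⟨a, b, ha, hb, ?_⟩
  have hSg₂m : S g₂ ^ m ≠ 0 := pow_ne_zero m hSg₂
  rw [← hab, map_div₀, map_pow, div_pow]
  field_simp

end Core

section Abstract

variable {C : Type*} [CommRing C] [IsDomain C] {F : Type*} [Field F] [Algebra C F]
  [IsFractionRing C F] [IsNoetherianRing C] [IsIntegrallyClosed C]

/-- **A root of `u` at the point `x`**: if the order of `u` at every horizontal height-one prime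
through `x` is divisible by `m`, and every such prime at which `u` is not a unit has a saturated
generator, there is `g` with `u / g ^ m` a unit at every horizontal height-one prime through
`x`. -/
theorem exists_root_at (x : Ideal C) (π : C) (hπ0 : π ≠ 0) (m : ℕ) (u : F) (hu : u ≠ 0)
    (hdiv : ∀ V ∈ heightOneVals F x, (algebraMap C F π)⁻¹ ∈ V →
      ∃ t : F, t ≠ 0 ∧ IsU V (u / t ^ m))
    (hgen : ∀ P : Ideal C, P.IsPrime → P.height = 1 → P ≤ x → π ∉ P →
      (∀ V : ValuationSubring F, IsLocAt P V → ¬ IsU V u) →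
      ∃ f ∈ P, ∀ y ∈ P, ∃ s : C, s ∉ x ∧ ∃ (n : ℕ) (c : C), s * π ^ n * y = f * c) :
    ∃ g : F, g ≠ 0 ∧
      ∀ V ∈ heightOneVals F x, (algebraMap C F π)⁻¹ ∈ V → IsU V (u / g ^ m) := by
  obtain ⟨g, hg0, hg⟩ := exists_root_of_local_eqs
    {V | V ∈ heightOneVals F x ∧ (algebraMap C F π)⁻¹ ∈ V} m u
    (fun V hV => hdiv V hV.1 hV.2)
    ((finite_not_isU x u hu).subset fun V hV => ⟨hV.1.1, hV.2⟩)
    (fun V hV hVu => by
      obtain ⟨⟨P, hP, hht, hPx, hPV⟩, hh⟩ := hV
      have hπP : π ∉ P := (hPV.inv_mem_iff hπ0).mp hh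
      obtain ⟨f, hfP, hgenf⟩ := hgen P hP hht hPx hπP (fun V' hV' => by
        rw [← hPV.unique hV']
        exact hVu)
      obtain ⟨hf0, hunif, hother⟩ :=
        local_eq_of_sat_gen x π hπ0 P hht hPx hπP f hfP hgenf V hPV
      exact ⟨algebraMap C F f, hf0, hunif, fun V' hV' hne => hother V' hV'.1 hV'.2 hne⟩)
  exact ⟨g, hg0, fun V hV hh => hg V ⟨hV, hh⟩⟩

/-- An automorphism `S` of `F` restricting to `σ` on `C` preserves the valuation of the local
ring at a `σ`-stable height-one prime. -/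
theorem isU_map_div_self_of_comap_eq (S : F ≃+* F) (σ : C ≃+* C)
    (hσS : ∀ c, S (algebraMap C F c) = algebraMap C F (σ c))
    (P : Ideal C) [hP : P.IsPrime] (hht : P.height = 1) (hPσ : P.comap σ = P)
    (V : ValuationSubring F) (hPV : IsLocAt P V) (y : F) (hy : y ≠ 0) : IsU V (S y / y) := by
  have hloc' := hPV.comap S σ hσS
  rw [hPσ] at hloc'
  have hVeq : V.comap (S : F →+* F) = V := hloc'.unique hPV
  obtain ⟨V', hV', hdvr⟩ := exists_isLocAt (F := F) P hht
  have hVV' : V = V' := hPV.unique hV'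
  subst hVV'
  refine isU_map_div_self V S (fun z => ?_) y hy
  constructor
  · intro hz
    have : z ∈ V.comap (S : F →+* F) := by rw [hVeq]; exact hz
    exact ValuationSubring.mem_comap.mp this
  · intro hz
    have : z ∈ V.comap (S : F →+* F) := ValuationSubring.mem_comap.mpr hz
    rwa [hVeq] at this

omit [IsNoetherianRing C] [IsIntegrallyClosed C] in
/-- `S` maps the horizontal local rings at `x` to horizontal local rings at `σ⁻¹ x`. -/
theorem comap_mem_heightOneVals_comap (x : Ideal C) (π : C) (hπ0 : π ≠ 0)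
    (S : F ≃+* F) (σ : C ≃+* C) (hσS : ∀ c, S (algebraMap C F c) = algebraMap C F (σ c))
    (hσπ : ∃ ε : C, π = σ π * ε)
    (V : ValuationSubring F) (hV : V ∈ heightOneVals F x) (hh : (algebraMap C F π)⁻¹ ∈ V) :
    V.comap (S : F →+* F) ∈ heightOneVals F (x.comap σ) ∧
      (algebraMap C F π)⁻¹ ∈ V.comap (S : F →+* F) := by
  obtain ⟨P, hP, hht, hPx, hPV⟩ := hV
  have hπP : π ∉ P := (hPV.inv_mem_iff hπ0).mp hh
  have hP' : (P.comap σ).IsPrime := Ideal.comap_isPrime _ _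
  have hloc' := hPV.comap S σ hσS
  have hπP' : π ∉ P.comap σ := by
    intro hmem
    rw [Ideal.mem_comap] at hmem
    obtain ⟨ε, hε⟩ := hσπ
    apply hπP
    rw [hε]
    exact P.mul_mem_right _ hmem
  refine ⟨⟨P.comap σ, hP', ?_, ?_, hloc'⟩, (hloc'.inv_mem_iff hπ0).mpr hπP'⟩
  · rw [RingEquiv.height_comap]
    exact hht
  · exact Ideal.comap_mono hPx

/-- At a vertical height-one prime `P ⊆ x` generated by `π` at `x`, every nonzero function is a
power of `π` times a unit of the local ring. -/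
theorem exists_zpow_isU_of_gen (x : Ideal C) (π : C) (hπ0 : π ≠ 0)
    (P : Ideal C) [hP : P.IsPrime] (hht : P.height = 1) (hPx : P ≤ x) (hπP : π ∈ P)
    (hPgen : ∀ y ∈ P, ∃ s : C, s ∉ x ∧ ∃ c : C, s * y = π * c)
    (V : ValuationSubring F) (hPV : IsLocAt P V) (g : F) (hg : g ≠ 0) :
    ∃ k : ℤ, IsU V (g / algebraMap C F π ^ k) := by
  have hinj : Function.Injective (algebraMap C F) := IsFractionRing.injective C F
  have hπ0' : algebraMap C F π ≠ 0 := fun h => hπ0 (hinj (by rw [h, map_zero]))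
  obtain ⟨V', hV', hdvr⟩ := exists_isLocAt (F := F) P hht
  have hVV' : V = V' := hPV.unique hV'
  subst hVV'
  refine exists_zpow_isU_of_generator V _ hπ0' (hPV.mem_nonunits_of_mem hπP) ?_ g hg
  intro y hy
  by_cases hy0 : y = 0
  · rw [hy0, zero_div]
    exact V.zero_mem
  have hyV : y ∈ V := ValuationSubring.nonunits_subset hy
  obtain ⟨a₀, s₀, hs₀, hys₀⟩ := (hPV y).mp hyV
  have hs₀0 : algebraMap C F s₀ ≠ 0 := by
    intro h0
    apply hs₀
    rw [hinj (by rw [h0, map_zero] : algebraMap C F s₀ = algebraMap C F 0)]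
    exact P.zero_mem
  have ha₀P : a₀ ∈ P := by
    by_contra ha₀
    have hyU : IsU V y := by
      have e : y = algebraMap C F a₀ / algebraMap C F s₀ := by
        rw [← hys₀, mul_div_assoc, div_self hs₀0, mul_one]
      rw [e]
      exact (hPV.isU_of_notMem ha₀).div (hPV.isU_of_notMem hs₀)
    rw [ValuationSubring.mem_nonunits_iff_or] at hy
    rcases hy with h | h
    · exact hy0 h
    · exact h hyU.2
  obtain ⟨s, hs, c, hc⟩ := hPgen a₀ ha₀P
  have hsP : s ∉ P := fun h => hs (hPx h)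
  have hden : s₀ * s ∉ P := by
    intro h
    rcases hP.mem_or_mem h with h | h
    · exact hs₀ h
    · exact hsP h
  refine (hPV _).mpr ⟨c, s₀ * s, hden, ?_⟩
  have e1 : algebraMap C F (s * a₀) = algebraMap C F (π * c) := by rw [hc]
  rw [map_mul, map_mul, ← hys₀] at e1
  rw [map_mul]
  field_simp
  linear_combination e1

end Abstract

/-! ### Step 1 for a general automorphism, at a point of a chart -/

section Chart

variable {A₀ : Type*} [CommRing A₀] {F : Type*} [Field F] [Algebra A₀ F]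

/-- The restriction to a chart `C` of an automorphism `S` of `F` preserving `C`. -/
def restrictEquiv (C : Subalgebra A₀ F) (S : F ≃+* F) (hSC : ∀ c ∈ C, S c ∈ C)
    (hSC' : ∀ c ∈ C, S.symm c ∈ C) : ↥C ≃+* ↥C :=
  { toFun := fun c => ⟨S c, hSC c c.2⟩
    invFun := fun c => ⟨S.symm c, hSC' c c.2⟩
    left_inv := fun c => Subtype.ext (S.symm_apply_apply c)
    right_inv := fun c => Subtype.ext (S.apply_symm_apply c)
    map_mul' := fun a b => Subtype.ext (map_mul S (a : F) (b : F))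
    map_add' := fun a b => Subtype.ext (map_add S (a : F) (b : F)) }

/-- **(STEP1-FROB) Step 1 at a closed point of a chart, for an automorphism `S` preserving the
chart** (not necessarily congruent to the identity modulo `π`).

`x' = S⁻¹ x` (`hx'`).  The vertical height-one primes through `x` are `S`-stable (`hvertS`), and
either `x' = x`, or every vertical height-one prime through `x` equals one prime `P₀` which is
generated by `π` at `x` (`hcase`).  If the order of `u` at the horizontal height-one primes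
through `x` and `x'` is divisible by `m` (`hdiv`, `hdiv'`) and the zeros and poles of `u`
through `x` and `x'` have saturated generators (`hgen`, `hgen'`), then
`S u / u = (a / b) g ^ m` with `a, b ∈ C ∖ x`. -/
theorem step1_frob_chart
    (C : Subalgebra A₀ F) [IsFractionRing ↥C F] [IsNoetherianRing ↥C] [IsIntegrallyClosed ↥C]
    (x : Ideal ↥C) (hx : x.IsPrime) (π : ↥C) (hπ0 : π ≠ 0) (hπx : π ∈ x)
    (S : F ≃+* F) (hSC : ∀ c ∈ C, S c ∈ C) (hSC' : ∀ c ∈ C, S.symm c ∈ C)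
    (hSπ : ∃ ε ∈ C, (π : F) = S (π : F) * ε)
    (x' : Ideal ↥C) (hx' : ∀ c : ↥C, c ∈ x' ↔ (⟨S c, hSC c c.2⟩ : ↥C) ∈ x)
    (hvertS : ∀ P : Ideal ↥C, P.IsPrime → P.height = 1 → P ≤ x → π ∈ P →
      ∀ c : ↥C, (⟨S c, hSC c c.2⟩ : ↥C) ∈ P ↔ c ∈ P)
    (hcase : x' = x ∨ ∃ P₀ : Ideal ↥C,
      (∀ P : Ideal ↥C, P.IsPrime → P.height = 1 → P ≤ x → π ∈ P → P = P₀) ∧
        ∀ y ∈ P₀, ∃ s : ↥C, s ∉ x ∧ ∃ c : ↥C, s * y = π * c)
    (m : ℕ) (u : F) (hu : u ≠ 0)
    (hdiv : ∀ V ∈ heightOneVals F x, (π : F)⁻¹ ∈ V → ∃ t : F, t ≠ 0 ∧ IsU V (u / t ^ m))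
    (hdiv' : ∀ V ∈ heightOneVals F x', (π : F)⁻¹ ∈ V → ∃ t : F, t ≠ 0 ∧ IsU V (u / t ^ m))
    (hgen : ∀ P : Ideal ↥C, P.IsPrime → P.height = 1 → P ≤ x → π ∉ P →
      (∀ V : ValuationSubring F, IsLocAt P V → ¬ IsU V u) →
      ∃ f ∈ P, ∀ y ∈ P, ∃ s : ↥C, s ∉ x ∧ ∃ (n : ℕ) (c : ↥C), s * π ^ n * y = f * c)
    (hgen' : ∀ P : Ideal ↥C, P.IsPrime → P.height = 1 → P ≤ x' → π ∉ P →
      (∀ V : ValuationSubring F, IsLocAt P V → ¬ IsU V u) →
      ∃ f ∈ P, ∀ y ∈ P, ∃ s : ↥C, s ∉ x' ∧ ∃ (n : ℕ) (c : ↥C), s * π ^ n * y = f * c) :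
    ∃ g : F, g ≠ 0 ∧ ∃ a b : ↥C, a ∉ x ∧ b ∉ x ∧ S u / u * (b : F) = (a : F) * g ^ m := by
  classical
  set σ : ↥C ≃+* ↥C := restrictEquiv C S hSC hSC' with hσdef
  have hσS : ∀ c : ↥C, S (algebraMap ↥C F c) = algebraMap ↥C F (σ c) := fun c => rfl
  have hσπ : ∃ ε : ↥C, π = σ π * ε := by
    obtain ⟨ε, hε, h⟩ := hSπ
    exact ⟨⟨ε, hε⟩, Subtype.ext h⟩
  have hx'eq : x' = x.comap σ := by
    ext c
    rw [hx' c, Ideal.mem_comap]
    rfl
  have hxP : x.IsPrime := hx
  have hπF : ((π : ↥C) : F) = algebraMap ↥C F π := rfl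
  have hπ0' : (π : F) ≠ 0 := fun h => hπ0 (Subtype.ext h)
  -- the two roots
  obtain ⟨g₁, hg₁0, hg₁⟩ := exists_root_at (F := F) x π hπ0 m u hu hdiv hgen
  obtain ⟨g₂, hg₂0, hg₂⟩ := exists_root_at (F := F) x' π hπ0 m u hu hdiv' hgen'
  -- `π` is a unit at the horizontal local rings
  have hπU : ∀ (z : Ideal ↥C) (V : ValuationSubring F), V ∈ heightOneVals F z →
      (π : F)⁻¹ ∈ V → IsU V (π : F) := by
    rintro z V ⟨Q, hQ, -, -, hQV⟩ hh
    exact hQV.isU_of_notMem ((hQV.inv_mem_iff hπ0).mp hh)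
  -- normalisation of a root by a power of `π`
  have hnorm : ∀ (z : Ideal ↥C) (g : F) (k : ℤ),
      (∀ V ∈ heightOneVals F z, (π : F)⁻¹ ∈ V → IsU V (u / g ^ m)) →
      ∀ V ∈ heightOneVals F z, (π : F)⁻¹ ∈ V → IsU V (u / (g / (π : F) ^ k) ^ m) := by
    intro z g k hg V hV hh
    have e : u / (g / (π : F) ^ k) ^ m = u / g ^ m * ((π : F) ^ k) ^ m := by
      rw [div_pow, div_div_eq_mul_div, mul_div_right_comm]
    rw [e]
    exact (hg V hV hh).mul (((hπU z V hV hh).zpow k).pow m)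
  -- the normalised roots
  have key : ∃ g₁' g₂' : F, g₁' ≠ 0 ∧ g₂' ≠ 0 ∧
      (∀ V ∈ heightOneVals F x, (π : F)⁻¹ ∈ V → IsU V (u / g₁' ^ m)) ∧
      (∀ V ∈ heightOneVals F x', (π : F)⁻¹ ∈ V → IsU V (u / g₂' ^ m)) ∧
      (∀ V ∈ heightOneVals F x, (π : F)⁻¹ ∉ V → IsU V (g₁' / g₂')) := by
    rcases hcase with hfix | ⟨P₀, hP₀, hP₀gen⟩
    · refine ⟨g₁, g₁, hg₁0, hg₁0, hg₁, ?_, fun V _ _ => ?_⟩
      · rw [hfix]
        exact hg₁
      · rw [div_self hg₁0]
        exact isU_one V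
    · by_cases hv : ∃ V : ValuationSubring F, V ∈ heightOneVals F x ∧ (π : F)⁻¹ ∉ V
      · obtain ⟨V₀, ⟨P, hP, hht, hPx, hPV⟩, hh₀⟩ := hv
        have hπP : π ∈ P := by
          by_contra hπP
          exact hh₀ ((hPV.inv_mem_iff hπ0).mpr hπP)
        have hPP₀ : P = P₀ := hP₀ P hP hht hPx hπP
        have hPgen : ∀ y ∈ P, ∃ s : ↥C, s ∉ x ∧ ∃ c : ↥C, s * y = π * c := by
          rw [hPP₀]
          exact hP₀gen
        obtain ⟨k₁, hk₁⟩ := exists_zpow_isU_of_gen x π hπ0 P hht hPx hπP hPgen V₀ hPV g₁ hg₁0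
        obtain ⟨k₂, hk₂⟩ := exists_zpow_isU_of_gen x π hπ0 P hht hPx hπP hPgen V₀ hPV g₂ hg₂0
        refine ⟨g₁ / (π : F) ^ k₁, g₂ / (π : F) ^ k₂,
          div_ne_zero hg₁0 (zpow_ne_zero _ hπ0'), div_ne_zero hg₂0 (zpow_ne_zero _ hπ0'),
          hnorm x g₁ k₁ hg₁, hnorm x' g₂ k₂ hg₂, ?_⟩
        rintro V ⟨Q, hQ, hhtQ, hQx, hQV⟩ hh
        have hπQ : π ∈ Q := by
          by_contra hπQ
          exact hh ((hQV.inv_mem_iff hπ0).mpr hπQ)
        have hQP : Q = P := by rw [hPP₀]; exact hP₀ Q hQ hhtQ hQx hπQ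
        subst hQP
        have hVV₀ : V = V₀ := hQV.unique hPV
        rw [hVV₀]
        exact hk₁.div hk₂
      · refine ⟨g₁, g₂, hg₁0, hg₂0, hg₁, hg₂, fun V hV hh => ?_⟩
        exact absurd ⟨V, hV, hh⟩ hv
  obtain ⟨g₁', g₂', hg₁'0, hg₂'0, hroot₁, hroot₂, hvert⟩ := key
  obtain ⟨a, b, ha, hb, hab⟩ := cartier_frob_core C x hx (π : F) (heightOneVals F x)
    (heightOneVals F x') (fun y h => krull_at x y h) S
    (fun V hV hh => by
      have h1 := comap_mem_heightOneVals_comap x π hπ0 S σ hσS hσπ V hV hh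
      rw [← hx'eq] at h1
      exact h1)
    (fun V hV hh y hy => by
      obtain ⟨P, hP, hht, hPx, hPV⟩ := hV
      have hπP : π ∈ P := by
        by_contra hπP
        exact hh ((hPV.inv_mem_iff hπ0).mpr hπP)
      have hPσ : P.comap σ = P := by
        ext c
        rw [Ideal.mem_comap]
        exact hvertS P hP hht hPx hπP c
      exact isU_map_div_self_of_comap_eq S σ hσS P hht hPσ V hPV y hy)
    m u g₁' g₂' hu hg₁'0 hg₂'0 hroot₁ hroot₂ hvert
  exact ⟨S g₂' / g₁', div_ne_zero ((map_ne_zero S).mpr hg₂'0) hg₁'0, a, b, ha, hb, hab⟩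

end Chart

end Fermat.Agent.S35.H58
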