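/-
S35-GEO, leaf L4 (HLOC-FROB) of the table row 3265 (helper58): the Cartier condition `hcart` of
(FROB-CECH) for `w = S u / u` at an `S`-stable closed point `x` of a chart, from the local divisor
datum `H30.HLoc` of `u` at `x` (the second certificate of the crossing points of Program B').

`HLoc ϖ m C x u` provides a root `f` of `u` at all horizontal primes through `x`; since
`S⁻¹ x = x`, the automorphism `S` permutes the horizontal height-one primes through `x`, and it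
fixes the vertical ones (they are the two Gauss rings); so `S (u / f ^ m) / (u / f ^ m)` is a unit
at every height-one prime through `x`, and Krull at `x` gives

  `S u / u = (a / b) (S f / f) ^ m`  with `a, b ∈ C ∖ x`.
-/
import Fermat.Agent.S35.H58.Step1Frob
import Fermat.Agent.S35.H7.Step1Frob
import Fermat.Agent.S34.H30.Skeleton
import Fermat.Agent.S34.H10.TwoGauss

set_option autoImplicit false
set_option linter.unusedSectionVars false
set_option linter.unusedVariables false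
set_option linter.style.haveILetI false

namespace Fermat.Agent.S35.H58

open Fermat.Agent.S34 Fermat.Agent.S34.H7 Fermat.Agent.S34.H10 Fermat.Agent.S34.H30

section HLocFrob

variable {A₀ F₀ : Type} [CommRing A₀] [Field F₀] [Algebra A₀ F₀] [FaithfulSMul A₀ F₀]

/-- **L4 (HLOC-FROB).**  At a closed point `x` of the special fibre of the chart `C` which is
stable under `S` (`hfix`), the local divisor datum `H30.HLoc` of `u` at `x` gives the Cartier
form of `S u / u` at `x`. -/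
theorem cartier_frob_of_hLoc (ϖ : A₀) (hϖ0 : ϖ ≠ 0) (C : Subalgebra A₀ F₀)
    [IsIntegrallyClosed ↥C] [IsNoetherianRing ↥C]
    (hfrac : ∀ y : F₀, ∃ a ∈ C, ∃ b ∈ C, b ≠ 0 ∧ y = a / b)
    (V₁ V₂ : ValuationSubring F₀) (hu₁ : IsUnif ϖ V₁) (hu₂ : IsUnif ϖ V₂)
    (hCV₁ : ∀ c ∈ C, c ∈ V₁) (hCV₂ : ∀ c ∈ C, c ∈ V₂)
    (hsat : ∀ y : F₀, y ∈ V₁ → y ∈ V₂ → ϖ • y ∈ C → y ∈ C)
    (S : F₀ ≃+* F₀) (hSC : ∀ c : F₀, S c ∈ C ↔ c ∈ C)
    (hSV₁ : ∀ y : F₀, S y ∈ V₁ ↔ y ∈ V₁) (hSV₂ : ∀ y : F₀, S y ∈ V₂ ↔ y ∈ V₂)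
    (m : ℕ) (u : F₀) (hu : u ≠ 0)
    (x : Ideal ↥C) (hx : x.IsMaximal)
    (hfix : ∀ c : ↥C, c ∈ Fermat.Agent.S35.H7.frobComap C S hSC x ↔ c ∈ x)
    (hloc : HLoc ϖ m C x u) :
    ∃ g : F₀, g ≠ 0 ∧ ∃ a b : ↥C, a ∉ x ∧ b ∉ x ∧ S u / u * (b : F₀) = (a : F₀) * g ^ m := by
  haveI : IsFractionRing ↥C F₀ := Fermat.Agent.S34.H54.isFractionRing_of_forall_div C hfrac
  haveI hxP : x.IsPrime := hx.isPrime
  have hinj : Function.Injective (algebraMap A₀ F₀) := FaithfulSMul.algebraMap_injective A₀ F₀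
  have hϖF : algebraMap A₀ F₀ ϖ ≠ 0 := fun h => hϖ0 (hinj (by rw [h, map_zero]))
  set π : ↥C := algebraMap A₀ ↥C ϖ with hπdef
  have hcoe : ((π : ↥C) : F₀) = algebraMap A₀ F₀ ϖ := rfl
  have hπ0 : π ≠ 0 := by
    intro h0
    apply hϖF
    rw [← hcoe, h0]
    rfl
  have hSC₁ : ∀ c ∈ C, S c ∈ C := fun c hc => (hSC c).2 hc
  have hSC₂ : ∀ c ∈ C, S.symm c ∈ C := fun c hc => by
    have h := (hSC (S.symm c)).1
    rw [S.apply_symm_apply] at h
    exact h hc
  -- `S` preserves the non-units of the two valuation rings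
  have hSn : ∀ (V : ValuationSubring F₀), (∀ y : F₀, S y ∈ V ↔ y ∈ V) →
      ∀ y : F₀, S y ∈ V.nonunits ↔ y ∈ V.nonunits := by
    intro V hSV y
    rw [ValuationSubring.mem_nonunits_iff_or, ValuationSubring.mem_nonunits_iff_or, ← map_inv₀,
      hSV, map_eq_zero_iff S S.injective]
  -- `ϖ` is a non-unit of both valuation rings
  have hϖ₁ : algebraMap A₀ F₀ ϖ ∈ V₁.nonunits :=
    (hu₁ _).2 ⟨1, V₁.one_mem, by rw [Algebra.smul_def, mul_one]⟩
  have hϖ₂ : algebraMap A₀ F₀ ϖ ∈ V₂.nonunits :=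
    (hu₂ _).2 ⟨1, V₂.one_mem, by rw [Algebra.smul_def, mul_one]⟩
  -- the reduced special fibre: `C ∩ m(V₁) ∩ m(V₂) = ϖ C`
  have hred : ∀ c : F₀, c ∈ C → c ∈ V₁.nonunits → c ∈ V₂.nonunits →
      ∃ d : ↥C, c = algebraMap A₀ F₀ ϖ * (d : F₀) := by
    intro c hc h1 h2
    obtain ⟨d₁, hd₁, e1⟩ := (hu₁ _).1 h1
    obtain ⟨d₂, hd₂, e2⟩ := (hu₂ _).1 h2
    have hdd : d₁ = d₂ := by
      have h3 : ϖ • d₁ = ϖ • d₂ := by rw [← e1, ← e2]
      rw [Algebra.smul_def, Algebra.smul_def] at h3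
      exact mul_left_cancel₀ hϖF h3
    subst hdd
    have hdC : d₁ ∈ C := hsat d₁ hd₁ hd₂ (by rw [← e1]; exact hc)
    refine ⟨⟨d₁, hdC⟩, ?_⟩
    show c = algebraMap A₀ F₀ ϖ * d₁
    rw [← Algebra.smul_def]
    exact e1
  -- the restriction of `S` to the chart
  set σ : ↥C ≃+* ↥C := Fermat.Agent.S34.H54.restrictEquiv C S hSC with hσ
  have hσS : ∀ c : ↥C, S (algebraMap ↥C F₀ c) = algebraMap ↥C F₀ (σ c) := fun c => rfl
  have hσπ : ∃ ε : ↥C, π = σ π * ε := by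
    have h1 : S.symm (algebraMap A₀ F₀ ϖ) ∈ V₁.nonunits := by
      rw [← hSn V₁ hSV₁, S.apply_symm_apply]
      exact hϖ₁
    have h2 : S.symm (algebraMap A₀ F₀ ϖ) ∈ V₂.nonunits := by
      rw [← hSn V₂ hSV₂, S.apply_symm_apply]
      exact hϖ₂
    obtain ⟨d, hd⟩ := hred _ (hSC₂ _ (C.algebraMap_mem ϖ)) h1 h2
    refine ⟨σ d, Subtype.ext ?_⟩
    show algebraMap A₀ F₀ ϖ = S (algebraMap A₀ F₀ ϖ) * S (d : F₀)
    rw [← map_mul, ← hd, S.apply_symm_apply]
  have hxσ : x.comap σ = x := by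
    ext c
    exact hfix c
  -- the root provided by `HLoc`
  obtain ⟨f, hf0, hf⟩ := hloc
  have hug : ∀ V ∈ heightOneVals F₀ x, ((π : ↥C) : F₀)⁻¹ ∈ V → IsU V (u / f ^ m) := by
    rintro V ⟨P, hP, hht, hPx, hPV⟩ hh
    have hπP : π ∉ P := (hPV.inv_mem_iff hπ0).mp hh
    obtain ⟨a, b, ha, hb, hab⟩ := hf P hP hPx hπP
    have hb0 : (b : F₀) ≠ 0 := by
      intro h0
      apply hb
      have : b = 0 := Subtype.ext h0
      rw [this]
      exact P.zero_mem
    have e : u / f ^ m = (a : F₀) / (b : F₀) := by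
      rw [div_eq_div_iff (pow_ne_zero m hf0) hb0, hab]
    rw [e]
    exact (hPV.isU_of_notMem ha).div (hPV.isU_of_notMem hb)
  obtain ⟨a, b, ha, hb, hab⟩ := cartier_frob_core C x hxP ((π : ↥C) : F₀) (heightOneVals F₀ x)
    (heightOneVals F₀ x) (fun y h => krull_at x y h) S
    (fun V hV hh => by
      have h1 := comap_mem_heightOneVals_comap x π hπ0 S σ hσS hσπ V hV hh
      rw [hxσ] at h1
      exact h1)
    (fun V hV hh y hy => by
      have hVk := Fermat.Agent.S35.H7.vertical_cases ϖ C V₁ V₂ hu₁ hu₂ hCV₁ hCV₂ hsat x V hV hh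
      obtain ⟨P, hP, hht, hPx, hPV⟩ := hV
      haveI : P.IsPrime := hP
      obtain ⟨V', hV', hdvr⟩ := exists_isLocAt (F := F₀) P hht
      have hVV' : V = V' := hPV.unique hV'
      subst hVV'
      rcases hVk with h | h
      · exact isU_map_div_self V S (fun z => by rw [h]; exact (hSV₁ z).symm) y hy
      · exact isU_map_div_self V S (fun z => by rw [h]; exact (hSV₂ z).symm) y hy)
    m u f f hu hf0 hf0 hug hug
    (fun V _ _ => by
      rw [div_self hf0]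
      exact isU_one V)
  exact ⟨S f / f, div_ne_zero ((map_ne_zero S).mpr hf0) hf0, a, b, ha, hb, hab⟩

end HLocFrob

end Fermat.Agent.S35.H58
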