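/-
S35-GEO, leaf L4 (HLOC-FROB) of the table row 3265 (helper58), in the vocabulary of
`H27.FrobCech`: at a crossing point (`H27.Crossing`) the point is `S`-stable, so the local
divisor datum `H30.HLoc` of `u` gives the Cartier form of `S u / u`.
-/
import Fermat.Agent.S35.H58.HLocFrob
import Fermat.Agent.S35.H27.FrobCech

set_option autoImplicit false
set_option linter.unusedSectionVars false
set_option linter.unusedVariables false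

namespace Fermat.Agent.S35.H58

open Fermat.Agent.S34 Fermat.Agent.S34.H7 Fermat.Agent.S34.H10 Fermat.Agent.S34.H30
open Fermat.Agent.S35.H27

section Cross

variable {A₀ F₀ : Type} [CommRing A₀] [Field F₀] [Algebra A₀ F₀]

/-- If `S` induces the `Q`-power map modulo the prime `x` of the chart `C` (`Q ≠ 0`), then
`S⁻¹ x = x`. -/
theorem mem_frobComap_iff_of_pow (C : Subalgebra A₀ F₀) (S : F₀ ≃+* F₀)
    (hSC : ∀ c : F₀, S c ∈ C ↔ c ∈ C) (Q : ℕ) (hQ : Q ≠ 0) (x : Ideal ↥C) (hx : x.IsPrime)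
    (hS : ∀ c : ↥C, ∃ d : ↥C, d ∈ x ∧ S (c : F₀) = (c : F₀) ^ Q + (d : F₀)) (c : ↥C) :
    c ∈ Fermat.Agent.S35.H7.frobComap C S hSC x ↔ c ∈ x := by
  rw [Fermat.Agent.S35.H7.mem_frobComap]
  obtain ⟨d, hd, e⟩ := hS c
  have e' : (⟨S (c : F₀), (hSC c).2 c.2⟩ : ↥C) = c ^ Q + d := Subtype.ext e
  rw [e', Ideal.add_mem_iff_left x hd]
  exact hx.pow_mem_iff_mem Q (Nat.pos_of_ne_zero hQ)

/-- A crossing point is `S`-stable. -/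
theorem mem_frobComap_iff_of_crossing (C : Subalgebra A₀ F₀) (V₁ V₂ : ValuationSubring F₀)
    (S : F₀ ≃+* F₀) (hSC : ∀ c : F₀, S c ∈ C ↔ c ∈ C) (Q m : ℕ) (hQ : Q ≠ 0) (x : Ideal ↥C)
    (hx : x.IsPrime) (hcr : Crossing C V₁ V₂ S Q m x) (c : ↥C) :
    c ∈ Fermat.Agent.S35.H7.frobComap C S hSC x ↔ c ∈ x :=
  mem_frobComap_iff_of_pow C S hSC Q hQ x hx hcr.2.2.1 c

variable [FaithfulSMul A₀ F₀]

/-- **L4 (HLOC-FROB) at a crossing point**: `H27.Crossing` + `H30.HLoc` give the Cartier form of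
`S u / u`. -/
theorem cartier_frob_of_hLoc_of_crossing (ϖ : A₀) (hϖ0 : ϖ ≠ 0) (C : Subalgebra A₀ F₀)
    [IsIntegrallyClosed ↥C] [IsNoetherianRing ↥C]
    (hfrac : ∀ y : F₀, ∃ a ∈ C, ∃ b ∈ C, b ≠ 0 ∧ y = a / b)
    (V₁ V₂ : ValuationSubring F₀) (hu₁ : IsUnif ϖ V₁) (hu₂ : IsUnif ϖ V₂)
    (hCV₁ : ∀ c ∈ C, c ∈ V₁) (hCV₂ : ∀ c ∈ C, c ∈ V₂)
    (hsat : ∀ y : F₀, y ∈ V₁ → y ∈ V₂ → ϖ • y ∈ C → y ∈ C)
    (S : F₀ ≃+* F₀) (hSC : ∀ c : F₀, S c ∈ C ↔ c ∈ C)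
    (hSV₁ : ∀ y : F₀, S y ∈ V₁ ↔ y ∈ V₁) (hSV₂ : ∀ y : F₀, S y ∈ V₂ ↔ y ∈ V₂)
    (Q : ℕ) (hQ : Q ≠ 0) (m : ℕ) (u : F₀) (hu : u ≠ 0)
    (x : Ideal ↥C) (hx : x.IsMaximal)
    (hcr : Crossing C V₁ V₂ S Q m x)
    (hloc : HLoc ϖ m C x u) :
    ∃ g : F₀, g ≠ 0 ∧ ∃ a b : ↥C, a ∉ x ∧ b ∉ x ∧ S u / u * (b : F₀) = (a : F₀) * g ^ m :=
  cartier_frob_of_hLoc ϖ hϖ0 C hfrac V₁ V₂ hu₁ hu₂ hCV₁ hCV₂ hsat S hSC hSV₁ hSV₂ m u hu x hx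
    (mem_frobComap_iff_of_crossing C V₁ V₂ S hSC Q m hQ x hx.isPrime hcr) hloc

end Cross

end Fermat.Agent.S35.H58
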