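/-
S35-GEO, leaf (STEP1-FROB) of the design row 2985 (helper58), consumer form: the Cartier
condition `hcart` of (FROB-CECH) for `w = S u / u`, from the local certificates `H30.PointOK` of
Program B' for `u` at all closed points of the chart, in the two-valuation vocabulary of
`H30.VData.Good`.

`C` a chart with the two Gauss valuation rings `V₁`, `V₂` (uniformiser `ϖ`, reduced special
fibre: `hsat`), `S` an automorphism of `F₀` preserving `C`, `V₁`, `V₂` (no congruence condition).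
At a closed point `x` of the special fibre such that either `S x ⊆ x` (crossing points), or `x`
does not lie on one of the two components (one-component points):

  `S u / u = (a / b) g ^ m`  with `a, b ∈ C ∖ x`.
-/
import Fermat.Agent.S35.H58.Step1Frob
import Fermat.Agent.S34.H30.Model

set_option autoImplicit false
set_option linter.unusedSectionVars false
set_option linter.unusedVariables false
set_option linter.style.haveILetI false

namespace Fermat.Agent.S35.H58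

open Fermat.Agent.S34 Fermat.Agent.S34.H7 Fermat.Agent.S34.H10 Fermat.Agent.S34.H30

section Model

variable {A₀ F₀ : Type} [CommRing A₀] [Field F₀] [Algebra A₀ F₀]

/-- The prime of the chart `C` cut out by a valuation ring `V ⊇ C` (a component of the special
fibre). -/
def compIdeal (C : Subalgebra A₀ F₀) (V : ValuationSubring F₀) (hCV : ∀ c ∈ C, c ∈ V) :
    Ideal ↥C :=
  (IsLocalRing.maximalIdeal ↥V).comap
    ({ toFun := fun c => ⟨(c : F₀), hCV c c.2⟩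
       map_one' := rfl
       map_mul' := fun _ _ => rfl
       map_zero' := rfl
       map_add' := fun _ _ => rfl } : ↥C →+* ↥V)

theorem mem_compIdeal (C : Subalgebra A₀ F₀) (V : ValuationSubring F₀) (hCV : ∀ c ∈ C, c ∈ V)
    (c : ↥C) : c ∈ compIdeal C V hCV ↔ (c : F₀) ∈ V.nonunits := by
  unfold compIdeal
  rw [Ideal.mem_comap]
  exact (ValuationSubring.coe_mem_nonunits_iff (A := V) (a := ⟨(c : F₀), hCV c c.2⟩)).symm

instance compIdeal_isPrime (C : Subalgebra A₀ F₀) (V : ValuationSubring F₀)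
    (hCV : ∀ c ∈ C, c ∈ V) : (compIdeal C V hCV).IsPrime := by
  unfold compIdeal
  exact Ideal.comap_isPrime _ _

/-- An automorphism preserving a valuation ring preserves its non-units. -/
theorem map_mem_nonunits_iff (V : ValuationSubring F₀) (S : F₀ ≃+* F₀)
    (hSV : ∀ y : F₀, S y ∈ V ↔ y ∈ V) (y : F₀) : S y ∈ V.nonunits ↔ y ∈ V.nonunits := by
  rw [ValuationSubring.mem_nonunits_iff_or, ValuationSubring.mem_nonunits_iff_or, ← map_inv₀,
    hSV, map_eq_zero_iff S S.injective]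

/-- The saturated generators at a point from the local certificate `H30.PointOK`. -/
theorem hgen_of_pointOK (C : Subalgebra A₀ F₀) [IsFractionRing ↥C F₀]
    (y : Ideal ↥C) (hy : y.IsPrime) (π : ↥C) (u : F₀) (hok : PointOK C y hy π u) :
    ∀ P : Ideal ↥C, P.IsPrime → P.height = 1 → P ≤ y → π ∉ P →
      (∀ V : ValuationSubring F₀, IsLocAt P V → ¬ IsU V u) →
      ∃ f ∈ P, ∀ z ∈ P, ∃ s : ↥C, s ∉ y ∧ ∃ (n : ℕ) (c : ↥C), s * π ^ n * z = f * c := by
  haveI : y.IsPrime := hy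
  rcases hok with hufd | hgen
  · intro P hP hht hPy _ _
    haveI : P.IsPrime := hP
    exact sat_gen_of_ufd y π (Localization.AtPrime y) hufd P hht hPy
  · exact hgen

variable [FaithfulSMul A₀ F₀]

/-- **(STEP1-FROB), consumer form.**  The hypothesis `hcart` of (FROB-CECH) for `w = S u / u` at
the closed point `x`, from `H30.PointOK` for `u` at all closed points of the special fibre of the
chart and the type of the point `x`: `S x ⊆ x`, or `x` is not on the `V₂`-component, or `x` is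
not on the `V₁`-component. -/
theorem cartier_frob_of_pointOK (ϖ : A₀) (hϖ0 : ϖ ≠ 0) (C : Subalgebra A₀ F₀)
    [IsIntegrallyClosed ↥C] [IsNoetherianRing ↥C]
    (hfrac : ∀ y : F₀, ∃ a ∈ C, ∃ b ∈ C, b ≠ 0 ∧ y = a / b)
    (V₁ V₂ : ValuationSubring F₀) (hu₁ : IsUnif ϖ V₁) (hu₂ : IsUnif ϖ V₂)
    (hCV₁ : ∀ c ∈ C, c ∈ V₁) (hCV₂ : ∀ c ∈ C, c ∈ V₂)
    (hsat : ∀ y : F₀, y ∈ V₁ → y ∈ V₂ → ϖ • y ∈ C → y ∈ C)
    (S : F₀ ≃+* F₀) (hSC : ∀ c : F₀, S c ∈ C ↔ c ∈ C)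
    (hSV₁ : ∀ y : F₀, S y ∈ V₁ ↔ y ∈ V₁) (hSV₂ : ∀ y : F₀, S y ∈ V₂ ↔ y ∈ V₂)
    (m : ℕ) (u : F₀) (hu : u ≠ 0)
    (hdiv : ∀ V : ValuationSubring F₀, (algebraMap A₀ F₀ ϖ)⁻¹ ∈ V →
      (∀ a : A₀, algebraMap A₀ F₀ a ∈ V) → IsDiscreteValuationRing V →
      ∃ t : F₀, t ≠ 0 ∧ u / t ^ m ∈ V ∧ (u / t ^ m)⁻¹ ∈ V)
    (hok : ∀ (y : Ideal ↥C) (hy : y.IsMaximal), algebraMap A₀ ↥C ϖ ∈ y →
      PointOK C y hy.isPrime (algebraMap A₀ ↥C ϖ) u)
    (x : Ideal ↥C) (hx : x.IsMaximal) (hϖx : algebraMap A₀ ↥C ϖ ∈ x)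
    (hcase : (∀ c : ↥C, c ∈ x → ∃ c' : ↥C, c' ∈ x ∧ S (c : F₀) = (c' : F₀)) ∨
      (∃ t : ↥C, t ∉ x ∧ (t : F₀) ∈ V₂.nonunits) ∨
      (∃ t : ↥C, t ∉ x ∧ (t : F₀) ∈ V₁.nonunits)) :
    ∃ g : F₀, g ≠ 0 ∧ ∃ a b : ↥C, a ∉ x ∧ b ∉ x ∧ S u / u * (b : F₀) = (a : F₀) * g ^ m := by
  haveI : IsFractionRing ↥C F₀ := Fermat.Agent.S34.H54.isFractionRing_of_forall_div C hfrac
  haveI hxP : x.IsPrime := hx.isPrime
  have hinj : Function.Injective (algebraMap A₀ F₀) := FaithfulSMul.algebraMap_injective A₀ F₀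
  have hϖF : algebraMap A₀ F₀ ϖ ≠ 0 := fun h => hϖ0 (hinj (by rw [h, map_zero]))
  set π : ↥C := algebraMap A₀ ↥C ϖ with hπdef
  have hcoe : ((π : ↥C) : F₀) = algebraMap A₀ F₀ ϖ := rfl
  have hπ0 : π ≠ 0 := by
    intro h0
    apply hϖF
    rw [← hcoe, h0]
    rfl
  have hSC₁ : ∀ c ∈ C, S c ∈ C := fun c hc => (hSC c).2 hc
  have hSC₂ : ∀ c ∈ C, S.symm c ∈ C := fun c hc => by
    have h := (hSC (S.symm c)).1
    rw [S.apply_symm_apply] at h
    exact h hc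
  -- `ϖ` is a non-unit of both valuation rings
  have hϖ₁ : algebraMap A₀ F₀ ϖ ∈ V₁.nonunits :=
    (hu₁ _).2 ⟨1, V₁.one_mem, by rw [Algebra.smul_def, mul_one]⟩
  have hϖ₂ : algebraMap A₀ F₀ ϖ ∈ V₂.nonunits :=
    (hu₂ _).2 ⟨1, V₂.one_mem, by rw [Algebra.smul_def, mul_one]⟩
  -- the reduced special fibre: `C ∩ m(V₁) ∩ m(V₂) = ϖ C`
  have hred : ∀ c : F₀, c ∈ C → c ∈ V₁.nonunits → c ∈ V₂.nonunits →
      ∃ d : ↥C, c = algebraMap A₀ F₀ ϖ * (d : F₀) := by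
    intro c hc h1 h2
    obtain ⟨d₁, hd₁, e1⟩ := (hu₁ _).1 h1
    obtain ⟨d₂, hd₂, e2⟩ := (hu₂ _).1 h2
    have hdd : d₁ = d₂ := by
      have h3 : ϖ • d₁ = ϖ • d₂ := by rw [← e1, ← e2]
      rw [Algebra.smul_def, Algebra.smul_def] at h3
      exact mul_left_cancel₀ hϖF h3
    subst hdd
    have hdC : d₁ ∈ C := hsat d₁ hd₁ hd₂ (by rw [← e1]; exact hc)
    refine ⟨⟨d₁, hdC⟩, ?_⟩
    show c = algebraMap A₀ F₀ ϖ * d₁
    rw [← Algebra.smul_def]
    exact e1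
  -- the two components
  set I₁ : Ideal ↥C := compIdeal C V₁ hCV₁ with hI₁
  set I₂ : Ideal ↥C := compIdeal C V₂ hCV₂ with hI₂
  have hmem₁ : ∀ c : ↥C, c ∈ I₁ ↔ (c : F₀) ∈ V₁.nonunits := mem_compIdeal C V₁ hCV₁
  have hmem₂ : ∀ c : ↥C, c ∈ I₂ ↔ (c : F₀) ∈ V₂.nonunits := mem_compIdeal C V₂ hCV₂
  have hπI₁ : π ∈ I₁ := (hmem₁ π).2 hϖ₁
  have hπI₂ : π ∈ I₂ := (hmem₂ π).2 hϖ₂
  have hinter : ∀ c : ↥C, c ∈ I₁ → c ∈ I₂ → ∃ d : ↥C, c = π * d := by
    intro c h1 h2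
    obtain ⟨d, hd⟩ := hred (c : F₀) c.2 ((hmem₁ c).1 h1) ((hmem₂ c).1 h2)
    exact ⟨d, Subtype.ext hd⟩
  -- a vertical height-one prime is one of the two components
  have hvert : ∀ P : Ideal ↥C, P.IsPrime → P.height = 1 → π ∈ P → P = I₁ ∨ P = I₂ := by
    intro P hP hht hπP
    have hmin := H54.mem_minimalPrimes_span_singleton_of_height_eq_one π hπ0 P hht hπP
    have hle : I₁ ≤ P ∨ I₂ ≤ P := by
      by_contra hcon
      push Not at hcon
      obtain ⟨h1, h2⟩ := hcon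
      obtain ⟨c₁, hc₁, hc₁P⟩ := SetLike.not_le_iff_exists.mp h1
      obtain ⟨c₂, hc₂, hc₂P⟩ := SetLike.not_le_iff_exists.mp h2
      obtain ⟨d, hd⟩ := hinter (c₁ * c₂) (I₁.mul_mem_right _ hc₁) (I₂.mul_mem_left _ hc₂)
      have : c₁ * c₂ ∈ P := by
        rw [hd]
        exact P.mul_mem_right _ hπP
      rcases hP.mem_or_mem this with h | h
      · exact hc₁P h
      · exact hc₂P h
    rcases hle with h | h
    · left
      exact le_antisymm (hmin.2 ⟨compIdeal_isPrime C V₁ hCV₁,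
        (Ideal.span_singleton_le_iff_mem _).mpr hπI₁⟩ h) h
    · right
      exact le_antisymm (hmin.2 ⟨compIdeal_isPrime C V₂ hCV₂,
        (Ideal.span_singleton_le_iff_mem _).mpr hπI₂⟩ h) h
  -- `S` preserves the two components
  have hSI₁ : ∀ c : ↥C, (⟨S c, hSC₁ c c.2⟩ : ↥C) ∈ I₁ ↔ c ∈ I₁ := fun c => by
    rw [hmem₁, hmem₁]
    exact map_mem_nonunits_iff V₁ S hSV₁ (c : F₀)
  have hSI₂ : ∀ c : ↥C, (⟨S c, hSC₁ c c.2⟩ : ↥C) ∈ I₂ ↔ c ∈ I₂ := fun c => by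
    rw [hmem₂, hmem₂]
    exact map_mem_nonunits_iff V₂ S hSV₂ (c : F₀)
  -- `S ϖ` is an associate of `ϖ` in `C`
  have hSπ : ∃ ε ∈ C, (π : F₀) = S (π : F₀) * ε := by
    have h1 : S.symm (algebraMap A₀ F₀ ϖ) ∈ V₁.nonunits := by
      rw [← map_mem_nonunits_iff V₁ S hSV₁, S.apply_symm_apply]
      exact hϖ₁
    have h2 : S.symm (algebraMap A₀ F₀ ϖ) ∈ V₂.nonunits := by
      rw [← map_mem_nonunits_iff V₂ S hSV₂, S.apply_symm_apply]
      exact hϖ₂
    obtain ⟨d, hd⟩ := hred _ (hSC₂ _ (C.algebraMap_mem ϖ)) h1 h2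
    refine ⟨S (d : F₀), hSC₁ _ d.2, ?_⟩
    rw [hcoe, ← map_mul, ← hd, S.apply_symm_apply]
  -- the point `x' = S⁻¹ x`
  set σ : ↥C ≃+* ↥C := restrictEquiv C S hSC₁ hSC₂ with hσ
  set x' : Ideal ↥C := x.comap σ with hx'def
  have hx'max : x'.IsMaximal := Ideal.comap_isMaximal_of_surjective σ σ.surjective
  have hx'mem : ∀ c : ↥C, c ∈ x' ↔ (⟨S c, hSC₁ c c.2⟩ : ↥C) ∈ x := fun c => Iff.rfl
  have hπx' : π ∈ x' := by
    rw [hx'mem]
    have h1 : S (algebraMap A₀ F₀ ϖ) ∈ V₁.nonunits :=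
      (map_mem_nonunits_iff V₁ S hSV₁ _).2 hϖ₁
    have h2 : S (algebraMap A₀ F₀ ϖ) ∈ V₂.nonunits :=
      (map_mem_nonunits_iff V₂ S hSV₂ _).2 hϖ₂
    obtain ⟨d, hd⟩ := hred _ (hSC₁ _ (C.algebraMap_mem ϖ)) h1 h2
    have e : (⟨S (π : F₀), hSC₁ _ π.2⟩ : ↥C) = π * d := Subtype.ext hd
    rw [e]
    exact x.mul_mem_right _ hϖx
  -- divisibility
  have hdivAt : ∀ y : Ideal ↥C, ∀ V ∈ heightOneVals F₀ y, ((π : ↥C) : F₀)⁻¹ ∈ V →
      ∃ t : F₀, t ≠ 0 ∧ IsU V (u / t ^ m) := fun y =>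
    hdiv_of_forall_dvr C y π m u
      (fun V hV hC hdvr => hdiv V (by rw [← hcoe]; exact hV)
        (fun a => hC (algebraMap A₀ ↥C a)) hdvr)
  -- the case distinction
  have hcase' : x' = x ∨ ∃ P₀ : Ideal ↥C,
      (∀ P : Ideal ↥C, P.IsPrime → P.height = 1 → P ≤ x → π ∈ P → P = P₀) ∧
        ∀ y ∈ P₀, ∃ s : ↥C, s ∉ x ∧ ∃ c : ↥C, s * y = π * c := by
    rcases hcase with hfix | ⟨t, htx, ht⟩ | ⟨t, htx, ht⟩
    · left
      have hle : x ≤ x' := by
        intro c hc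
        rw [hx'mem]
        obtain ⟨c', hc', e⟩ := hfix c hc
        have : (⟨S (c : F₀), hSC₁ _ c.2⟩ : ↥C) = c' := Subtype.ext e
        rw [this]
        exact hc'
      exact (hx.eq_of_le hx'max.ne_top hle).symm
    · right
      have htI₂ : t ∈ I₂ := (hmem₂ t).2 ht
      refine ⟨I₁, fun P hP hht hPx hπP => ?_, fun y hy => ?_⟩
      · rcases hvert P hP hht hπP with h | h
        · exact h
        · exfalso
          apply htx
          apply hPx
          rw [h]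
          exact htI₂
      · obtain ⟨d, hd⟩ := hinter (t * y) (I₁.mul_mem_left _ hy) (I₂.mul_mem_right _ htI₂)
        exact ⟨t, htx, d, hd⟩
    · right
      have htI₁ : t ∈ I₁ := (hmem₁ t).2 ht
      refine ⟨I₂, fun P hP hht hPx hπP => ?_, fun y hy => ?_⟩
      · rcases hvert P hP hht hπP with h | h
        · exfalso
          apply htx
          apply hPx
          rw [h]
          exact htI₁
        · exact h
      · obtain ⟨d, hd⟩ := hinter (t * y) (I₁.mul_mem_right _ htI₁) (I₂.mul_mem_left _ hy)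
        exact ⟨t, htx, d, hd⟩
  exact step1_frob_chart C x hxP π hπ0 hϖx S hSC₁ hSC₂ hSπ x' hx'mem
    (fun P hP hht _ hπP c => by
      rcases hvert P hP hht hπP with h | h
      · rw [h]
        exact hSI₁ c
      · rw [h]
        exact hSI₂ c)
    hcase' m u hu (hdivAt x) (hdivAt x')
    (hgen_of_pointOK C x hxP π u (hok x hx hϖx))
    (hgen_of_pointOK C x' hx'max.isPrime π u (hok x' hx'max hπx'))

end Model

end Fermat.Agent.S35.H58
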